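import Fermat.Agent.S40.Kill.Main

/-!
# S40 / Kill : consumer form of `redJ_oldKill`   (owner: helper81)

`y : JZero M₀` ANY point whose reduction is an eigenclass killed by `p` for a system of eigenvalues `c` which is not `p`-old
(`t₀` kills `S₂(Γ₀(M₀))`, `p ∤ θ_c(t₀)`).  Then `redJ M₀ p A y = 0`.

`hstab` is MAZ [HEQ] (`MAZ.redJ_hecke`, `MAZ/Geo/Heq.lean`): the `T_ℓ` preserve the kernel of `redJ`.
For `S40.GoodSys M₀ p S a` take `c := S40.cutS S a` (`hc0 := fun ℓ h => cutS_of_bad h`).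
-/

set_option autoImplicit false
set_option synthInstance.maxHeartbeats 400000

noncomputable section

open AlgebraicCurve ModularCurve

namespace Fermat.Agent.S40.Kill

open Fermat.Agent.FLAT (Qb GQ)
open Fermat.Agent.MAZ (redJ)
open Fermat.Agent.GAL Fermat.Agent.GAL.PC

/-- the `T_ℓ` commute. -/
theorem TJ_comm (N : ℕ) [NeZero N] (S : Set ℕ) (ℓ ℓ' : ℕ) :
    TJ N S ℓ * TJ N S ℓ' = TJ N S ℓ' * TJ N S ℓ := by
  by_cases h : ℓ.Prime ∧ ℓ ∉ S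
  swap
  · rw [TJ_of_bad h, zero_mul, mul_zero]
  by_cases h' : ℓ'.Prime ∧ ℓ' ∉ S
  swap
  · rw [TJ_of_bad h', zero_mul, mul_zero]
  rw [TJ_of_good h.1 h.2, TJ_of_good h'.1 h'.2]
  exact Fermat.Agent.GAL.HeckeComm.heckeOperatorsCommuteBar N _ _

/-- polynomials in the `T_ℓ` act on `J₀(N)`. -/
theorem exists_polyJ (N : ℕ) [NeZero N] (S : Set ℕ) :
    ∃ f : MvPolynomial ℕ ℤ →+* Module.End ℤ (JZero N), ∀ ℓ, f (MvPolynomial.X ℓ) = TJ N S ℓ :=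
  exists_ringHom_of_commute (TJ N S) (TJ_comm N S)

section Abs

variable {J J' : Type*} [AddCommGroup J] [AddCommGroup J'] (red : J →+ J')
  (T : ℕ → Module.End ℤ J) (f : MvPolynomial ℕ ℤ →+* Module.End ℤ J)
  (hf : ∀ ℓ, f (MvPolynomial.X ℓ) = T ℓ)

include hf

theorem red_poly_eq_zero (hstab : ∀ ℓ z, red z = 0 → red (T ℓ z) = 0) (t : MvPolynomial ℕ ℤ)
    (z : J) (hz : red z = 0) : red (f t z) = 0 := by
  induction t using MvPolynomial.induction_on generalizing z with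
  | C a =>
    rw [eq_intCast (MvPolynomial.C : ℤ →+* MvPolynomial ℕ ℤ) a, map_intCast,
      Module.End.intCast_apply, map_zsmul, hz, smul_zero]
  | add P Q hP hQ => rw [map_add, LinearMap.add_apply, map_add, hP z hz, hQ z hz, add_zero]
  | mul_X P ℓ hP =>
    rw [map_mul, Module.End.mul_apply, hf]
    exact hP _ (hstab ℓ z hz)

theorem red_poly_eigen (hstab : ∀ ℓ z, red z = 0 → red (T ℓ z) = 0) (c : ℕ → ℤ) (y : J)
    (hy : ∀ ℓ, red (T ℓ y) = c ℓ • red y) (t : MvPolynomial ℕ ℤ) :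
    red (f t y) = MvPolynomial.aeval c t • red y := by
  induction t using MvPolynomial.induction_on with
  | C a =>
    rw [eq_intCast (MvPolynomial.C : ℤ →+* MvPolynomial ℕ ℤ) a, map_intCast, map_intCast,
      Module.End.intCast_apply, map_zsmul]
    rfl
  | add P Q hP hQ => rw [map_add, map_add, LinearMap.add_apply, map_add, hP, hQ, add_smul]
  | mul_X P ℓ hP =>
    rw [map_mul, map_mul, Module.End.mul_apply, hf, MvPolynomial.aeval_X]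
    have hw : red (T ℓ y - c ℓ • y) = 0 := by rw [map_sub, map_zsmul, hy, sub_self]
    have h1 := red_poly_eq_zero red T f hf hstab P _ hw
    rw [map_sub, map_sub, sub_eq_zero, map_zsmul, map_zsmul, hP] at h1
    rw [h1, smul_smul, mul_comm]

end Abs

theorem eq_zero_of_coprime_smul {J : Type*} [AddCommGroup J] {p : ℕ} (hp : p.Prime) {θ : ℤ}
    (hθ : ¬ (p : ℤ) ∣ θ) (r : J) (hpy : p • r = 0) (h1 : θ • r = 0) : r = 0 := by
  have hcop : IsCoprime (p : ℤ) θ := (Nat.prime_iff_prime_int.1 hp).coprime_iff_not_dvd.2 hθ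
  obtain ⟨u, v, huv⟩ := hcop
  have : r = (u * (p : ℤ) + v * θ) • r := by rw [huv, one_smul]
  rw [this, add_smul, mul_smul, mul_smul, h1, natCast_zsmul, hpy, smul_zero, smul_zero, add_zero]

/-- **consumer form.** -/
theorem redJ_eq_zero_of_eigen {M₀ p : ℕ} [NeZero M₀] (hp : p.Prime) (hpM : ¬ p ∣ M₀)
    (A : ValuationSubring Qb) (hA : A.LiesOverPrime p) (S : Set ℕ)
    (hS : ∀ ℓ : ℕ, ℓ.Prime → ℓ ∉ S → ¬ ℓ ∣ M₀)
    (hstab : ∀ ℓ : Nat.Primes, (ℓ : ℕ) ∉ S → ∀ z : JZero M₀, redJ M₀ p A z = 0 →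
      redJ M₀ p A (heckeOperatorBar M₀ ℓ z) = 0)
    (c : ℕ → ℤ) (hc0 : ∀ ℓ, ¬ (ℓ.Prime ∧ ℓ ∉ S) → c ℓ = 0)
    (t₀ : MvPolynomial ℕ ℤ) (ht₀ : MvPolynomial.aeval (heckeT M₀ S) t₀ = 0)
    (hθ : ¬ (p : ℤ) ∣ MvPolynomial.aeval c t₀)
    (y : JZero M₀) (hpy : p • redJ M₀ p A y = 0)
    (hy : ∀ ℓ : Nat.Primes, (ℓ : ℕ) ∉ S →
      redJ M₀ p A (heckeOperatorBar M₀ ℓ y) = c ℓ • redJ M₀ p A y) :
    redJ M₀ p A y = 0 := by
  obtain ⟨f, hf⟩ := exists_polyJ M₀ S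
  have hstab' : ∀ ℓ z, redJ M₀ p A z = 0 → redJ M₀ p A (TJ M₀ S ℓ z) = 0 := by
    intro ℓ z hz
    by_cases h : ℓ.Prime ∧ ℓ ∉ S
    · rw [TJ_of_good h.1 h.2]
      exact hstab ⟨ℓ, h.1⟩ h.2 z hz
    · rw [TJ_of_bad h, LinearMap.zero_apply, map_zero]
  have hy' : ∀ ℓ, redJ M₀ p A (TJ M₀ S ℓ y) = c ℓ • redJ M₀ p A y := by
    intro ℓ
    by_cases h : ℓ.Prime ∧ ℓ ∉ S
    · rw [TJ_of_good h.1 h.2]
      exact hy ⟨ℓ, h.1⟩ h.2
    · rw [TJ_of_bad h, LinearMap.zero_apply, map_zero, hc0 ℓ h]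
      exact (zero_zsmul _).symm
  have h1 := red_poly_eigen (redJ M₀ p A) (TJ M₀ S) f hf hstab' c y hy' t₀
  rw [redJ_oldKill hp hpM A hA S hS f hf t₀ ht₀ y] at h1
  exact eq_zero_of_coprime_smul hp hθ _ hpy h1.symm

end Fermat.Agent.S40.Kill
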