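import Fermat.Agent.RED.FF.Riemann
import Fermat.Prelude.Def_AlgebraicCurve_BaseChangeGalois

/-!
# S40 / Kill : [FINRED], abstract part (owner: helper81)

`F / K` a function field (`IsSepParam K x`, `K` algebraically closed, any characteristic), `g` a semilinear automorphism of `F`
which fixes `x` and a place `P₀`, and such that every power `g ^ n`, `n ≥ 1`, has only finitely many fixed constants
(a Frobenius).  Then `g` has only finitely many fixed points on `Pic0 K F`.

Proof: every class has a unique effective representative `E - (deg E) P₀` of minimal degree, `deg E ≤ g_R`.  If the class is fixed,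
`g E = E`, so that the points of `E` are fixed by `g ^ (g_R !)`; their `x`-coordinate is fixed as well.
-/

set_option autoImplicit false

open AlgebraicCurve

namespace Fermat.Agent.S40.Kill

open Fermat.Agent.RED Fermat.Agent.S24

variable {K F : Type*} [Field K] [Field F] [Algebra K F] {x : F}

/-- `E` is effective and `E - (deg E) P₀ ~ D`. -/
def IsRep (P₀ : Place K F) (D E : Divisor K F) : Prop :=
  0 ≤ E ∧ Divisor.IsPrincipal (E - Divisor.degree E • Finsupp.single P₀ (1 : ℤ) - D)

/-- a representative of minimal degree. -/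
def IsMinRep (P₀ : Place K F) (D E : Divisor K F) : Prop :=
  IsRep P₀ D E ∧ ∀ E', IsRep P₀ D E' → Divisor.degree E ≤ Divisor.degree E'

theorem isPrincipal_add {D E : Divisor K F} (hD : D.IsPrincipal) (hE : E.IsPrincipal) :
    (D + E).IsPrincipal :=
  (Divisor.principal (K := K) (F := F)).add_mem hD hE

theorem isPrincipal_sub {D E : Divisor K F} (hD : D.IsPrincipal) (hE : E.IsPrincipal) :
    (D - E).IsPrincipal :=
  (Divisor.principal (K := K) (F := F)).sub_mem hD hE

section AC

variable [IsAlgClosed K]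

theorem exists_isRep (hx : IsSepParam K x) (P₀ : Place K F) (D : Divisor K F)
    (hD : Divisor.degree D = 0) : ∃ E, IsRep P₀ D E ∧ Divisor.degree E = gR K F := by
  obtain ⟨f, hf, hf0⟩ := hx.exists_ne_zero_mem_L (A := D + gR K F • Finsupp.single P₀ (1 : ℤ))
    (by rw [map_add, map_zsmul, hx.degree_single, hD]; simp)
  rw [mem_L_iff_of_ne_zero hf0] at hf
  have hdeg : Divisor.degree (D + gR K F • Finsupp.single P₀ (1 : ℤ) + dv K f) = gR K F := by
    rw [map_add, map_add, map_zsmul, hx.degree_single, hD, hx.degree_dv]; simp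
  refine ⟨D + gR K F • Finsupp.single P₀ (1 : ℤ) + dv K f, ⟨fun v => ?_, ?_⟩, hdeg⟩
  · have := hf v
    rw [Finsupp.add_apply, hx.dv_apply]
    simpa [add_comm] using this
  · rw [hdeg]
    have : D + gR K F • Finsupp.single P₀ (1 : ℤ) + dv K f - gR K F • Finsupp.single P₀ (1 : ℤ) - D
        = dv K f := by abel
    rw [this]
    exact hx.isPrincipal_dv hf0

theorem exists_isMinRep (hx : IsSepParam K x) (P₀ : Place K F) (D : Divisor K F)
    (hD : Divisor.degree D = 0) : ∃ E, IsMinRep P₀ D E ∧ Divisor.degree E ≤ gR K F := by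
  classical
  have hne : ∃ d : ℕ, ∃ E, IsRep P₀ D E ∧ Divisor.degree E = d := by
    obtain ⟨E, hE, hd⟩ := exists_isRep hx P₀ D hD
    exact ⟨(gR K F).toNat, E, hE, by rw [hd, Int.toNat_of_nonneg hx.gR_nonneg]⟩
  obtain ⟨E, hE, hd⟩ := Nat.find_spec hne
  have hmin : ∀ E', IsRep P₀ D E' → Divisor.degree E ≤ Divisor.degree E' := by
    intro E' hE'
    have h0 := hx.degree_nonneg hE'.1
    have := Nat.find_min' hne (m := (Divisor.degree E').toNat)
      ⟨E', hE', by rw [Int.toNat_of_nonneg h0]⟩
    rw [hd]
    omega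
  refine ⟨E, ⟨hE, hmin⟩, ?_⟩
  obtain ⟨E', hE', hd'⟩ := exists_isRep hx P₀ D hD
  rw [← hd']
  exact hmin E' hE'

/-- if `h ≠ 0` lies in `L(E - P₀)` then `E` is not minimal. -/
theorem IsMinRep.not_mem_L (hx : IsSepParam K x) {P₀ : Place K F} {D E : Divisor K F}
    (hE : IsMinRep P₀ D E) {h : F} (h0 : h ≠ 0)
    (hh : h ∈ riemannRochSpace (E - Finsupp.single P₀ (1 : ℤ))) : False := by
  rw [mem_L_iff_of_ne_zero h0] at hh
  have hdeg : Divisor.degree (E - Finsupp.single P₀ (1 : ℤ) + dv K h) = Divisor.degree E - 1 := by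
    rw [map_add, map_sub, hx.degree_single, hx.degree_dv]; ring
  have hrep : IsRep P₀ D (E - Finsupp.single P₀ (1 : ℤ) + dv K h) := by
    refine ⟨fun v => ?_, ?_⟩
    · have := hh v
      rw [Finsupp.add_apply, hx.dv_apply]
      simpa [add_comm] using this
    · rw [hdeg]
      have : E - Finsupp.single P₀ (1 : ℤ) + dv K h
            - (Divisor.degree E - 1) • Finsupp.single P₀ (1 : ℤ) - D
          = (E - Divisor.degree E • Finsupp.single P₀ (1 : ℤ) - D) + dv K h := by
        rw [sub_smul, one_smul]; abel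
      rw [this]
      exact isPrincipal_add hE.1.2 (hx.isPrincipal_dv h0)
  have := hE.2 _ hrep
  rw [hdeg] at this
  omega

theorem IsMinRep.unique (hx : IsSepParam K x) {P₀ : Place K F} {D E E' : Divisor K F}
    (hE : IsMinRep P₀ D E) (hE' : IsMinRep P₀ D E') : E = E' := by
  have hd : Divisor.degree E = Divisor.degree E' :=
    le_antisymm (hE.2 _ hE'.1) (hE'.2 _ hE.1)
  have hp : (E - E').IsPrincipal := by
    have := isPrincipal_sub hE.1.2 hE'.1.2
    rw [hd] at this
    have e : E - Divisor.degree E' • Finsupp.single P₀ (1 : ℤ) - D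
        - (E' - Divisor.degree E' • Finsupp.single P₀ (1 : ℤ) - D) = E - E' := by abel
    rwa [e] at this
  obtain ⟨f, hf0, hf⟩ := hp
  have hfL : f ∈ riemannRochSpace (E' - Finsupp.single P₀ (1 : ℤ) + Finsupp.single P₀ (1 : ℤ)) := by
    rw [sub_add_cancel, mem_L_iff_of_ne_zero hf0]
    intro v
    have h1 := hf v
    rw [Finsupp.sub_apply] at h1
    have h2 := hE.1.1 v
    rw [Finsupp.zero_apply] at h2
    omega
  have h1L : (1 : F) ∈
      riemannRochSpace (E' - Finsupp.single P₀ (1 : ℤ) + Finsupp.single P₀ (1 : ℤ)) := by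
    rw [sub_add_cancel, mem_L_iff_of_ne_zero one_ne_zero]
    intro v
    have h2 := hE'.1.1 v
    rw [Finsupp.zero_apply] at h2
    simpa using h2
  have h1n : (1 : F) ∉ riemannRochSpace (E' - Finsupp.single P₀ (1 : ℤ)) :=
    fun h => hE'.not_mem_L hx one_ne_zero h
  obtain ⟨c, hc⟩ := hx.L_step _ P₀ hfL h1L h1n
  have hfc : f - c • (1 : F) = 0 := by
    by_contra hne
    exact hE'.not_mem_L hx hne hc
  have hfc' : f = algebraMap K F c := by
    rw [sub_eq_zero] at hfc
    rw [hfc, Algebra.smul_def, mul_one]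
  have : E - E' = 0 := by
    ext v
    rw [hf v, hfc', Place.ord_algebraMap, Finsupp.zero_apply]
  exact sub_eq_zero.1 this

end AC

/-! ### equivariance -/

theorem smul_nonneg_div (g : SemilinearAut K F) {E : Divisor K F} (hE : 0 ≤ E) : 0 ≤ g • E := by
  intro v
  rw [SemilinearAut.divisor_smul_apply]
  exact hE _

theorem IsRep.smul (g : SemilinearAut K F) {P₀ : Place K F} {D E : Divisor K F}
    (hP : g • P₀ = P₀) (hD : (g • D - D).IsPrincipal) (hE : IsRep P₀ D E) :
    IsRep P₀ D (g • E) := by
  refine ⟨smul_nonneg_div g hE.1, ?_⟩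
  have h1 : (g • (E - Divisor.degree E • Finsupp.single P₀ (1 : ℤ) - D)).IsPrincipal :=
    SemilinearAut.smul_mem_principal g hE.2
  have h2 : g • (E - Divisor.degree E • Finsupp.single P₀ (1 : ℤ) - D)
      = g • E - Divisor.degree E • Finsupp.single P₀ (1 : ℤ) - g • D := by
    rw [smul_sub, smul_sub, smul_comm, SemilinearAut.smul_single, hP]
  rw [h2] at h1
  have h3 := isPrincipal_add h1 hD
  rw [SemilinearAut.degree_smul]
  have e : g • E - Divisor.degree E • Finsupp.single P₀ (1 : ℤ) - g • D + (g • D - D)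
      = g • E - Divisor.degree E • Finsupp.single P₀ (1 : ℤ) - D := by abel
  rwa [e] at h3

theorem IsMinRep.smul_eq [IsAlgClosed K] (hx : IsSepParam K x) (g : SemilinearAut K F)
    {P₀ : Place K F} {D E : Divisor K F}
    (hP : g • P₀ = P₀) (hD : (g • D - D).IsPrincipal) (hE : IsMinRep P₀ D E) : g • E = E := by
  refine IsMinRep.unique hx ⟨hE.1.smul g hP hD, fun E' hE' => ?_⟩ hE
  rw [SemilinearAut.degree_smul]
  exact hE.2 E' hE'

/-! ### fixed places -/

theorem finite_fixed_places [IsAlgClosed K] (hx : IsSepParam K x) (h : SemilinearAut K F)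
    (hhx : h • x = x) (hfin : {a : K | SemilinearAut.baseAut h a = a}.Finite) :
    {P : Place K F | h • P = P}.Finite := by
  have hU : ({v : Place K F | v.ord x < 0} ∪
      ⋃ a ∈ {a : K | SemilinearAut.baseAut h a = a},
        {v : Place K F | 0 < v.ord (x - algebraMap K F a)}).Finite :=
    hx.finite_poles.union (hfin.biUnion fun a _ => hx.finite_fibre a)
  refine hU.subset ?_
  intro P hP
  have hP' : h • P = P := hP
  by_cases hpole : P.ord x < 0
  · exact Or.inl hpole
  right
  have hxP : x ∈ P.toValuationSubring := (Place.mem_iff_ord_nonneg P hx.ne_zero).2 (not_lt.1 hpole)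
  obtain ⟨c, hc⟩ := hx.exists_value P hxP
  rcases hc with hc | hc
  · exact absurd (sub_eq_zero.2 hc) (hx.sub_const c).ne_zero
  have h1 : 0 < P.ord (x - algebraMap K F (SemilinearAut.baseAut h c)) := by
    have := SemilinearAut.ord_smul h P (x - algebraMap K F c)
    rw [hP', smul_sub, hhx, SemilinearAut.smul_algebraMap] at this
    rw [this]
    exact hc
  have hfix : SemilinearAut.baseAut h c = c := by
    by_contra hne
    have hx1 := (hx.sub_const c).ne_zero
    have hx2 := (hx.sub_const (SemilinearAut.baseAut h c)).ne_zero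
    have hd : (x - algebraMap K F c) + -(x - algebraMap K F (SemilinearAut.baseAut h c))
        = algebraMap K F (SemilinearAut.baseAut h c - c) := by
      rw [map_sub]; ring
    have hd0 : algebraMap K F (SemilinearAut.baseAut h c - c) ≠ 0 := by
      simpa [sub_eq_zero] using hne
    have := Place.ord_add_ge P hx1 (neg_ne_zero.mpr hx2) (by rw [hd]; exact hd0)
    rw [hd, Place.ord_algebraMap, Place.ord_neg] at this
    have := lt_min hc h1
    omega
  simp only [Set.mem_iUnion]
  exact ⟨c, hfix, hc⟩

theorem pow_smul_eq_self {G X : Type*} [Monoid G] [MulAction G X] {g : G} {a : X} (h : g • a = a)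
    (n : ℕ) : g ^ n • a = a := by
  induction n with
  | zero => rw [pow_zero, one_smul]
  | succ n ih => rw [pow_succ, mul_smul, h, ih]

/-- the points of a `g`-stable effective divisor of degree `≤ γ` are fixed by `g ^ γ!`. -/
theorem pow_factorial_smul_eq [IsAlgClosed K] (hx : IsSepParam K x) (g : SemilinearAut K F)
    {E : Divisor K F} (hE : 0 ≤ E) (hg : g • E = E) (γ : ℕ) (hγ : Divisor.degree E ≤ γ)
    {P : Place K F} (hP : P ∈ E.support) : g ^ γ.factorial • P = P := by
  classical
  have hcard : (E.support.card : ℤ) ≤ γ := by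
    refine le_trans ?_ hγ
    rw [hx.degree_eq_sum]
    have : ∀ v ∈ E.support, (1 : ℤ) ≤ E v := by
      intro v hv
      have h1 := hE v
      rw [Finsupp.zero_apply] at h1
      have h2 : E v ≠ 0 := Finsupp.mem_support_iff.1 hv
      omega
    calc (E.support.card : ℤ) = ∑ _v ∈ E.support, (1 : ℤ) := by simp
      _ ≤ ∑ v ∈ E.support, E v := Finset.sum_le_sum this
  have hstab : ∀ i : ℕ, g ^ i • P ∈ E.support := by
    intro i
    have hgi : g ^ i • E = E := pow_smul_eq_self hg i
    rw [Finsupp.mem_support_iff, ← hgi, SemilinearAut.divisor_smul_apply_smul]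
    exact Finsupp.mem_support_iff.1 hP
  obtain ⟨i, hi, k, hk, hik, heq⟩ := Finset.exists_ne_map_eq_of_card_lt_of_maps_to
    (s := Finset.range (γ + 1)) (t := E.support) (f := fun i => g ^ i • P)
    (by rw [Finset.card_range]; omega) (fun i _ => hstab i)
  -- wlog `i < k`
  have key : ∀ i k : ℕ, i < k → k ≤ γ → g ^ i • P = g ^ k • P → g ^ γ.factorial • P = P := by
    intro i k hik hk heq
    have h1 : g ^ (k - i) • P = P := by
      have : g ^ k = g ^ i * g ^ (k - i) := by rw [← pow_add]; congr 1; omega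
      rw [this, mul_smul] at heq
      exact (MulAction.injective (g ^ i) heq).symm
    obtain ⟨q, hq⟩ := Nat.dvd_factorial (show 0 < k - i by omega) (show k - i ≤ γ by omega)
    rw [hq, pow_mul]
    exact pow_smul_eq_self h1 q
  rw [Finset.mem_range] at hi hk
  rcases lt_or_gt_of_ne hik with h | h
  · exact key i k h (by omega) heq
  · exact key k i h (by omega) heq.symm

/-- **[FINRED], abstract form.** -/
theorem finite_fixed_pic0 [IsAlgClosed K] (hx : IsSepParam K x) (g : SemilinearAut K F)
    (hgx : g • x = x) (P₀ : Place K F) (hP : g • P₀ = P₀)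
    (hfin : ∀ n : ℕ, 0 < n → {a : K | SemilinearAut.baseAut (g ^ n) a = a}.Finite) :
    {c : Pic0 K F | g • c = c}.Finite := by
  classical
  set γ : ℕ := (gR K F).toNat with hγ
  have hγ' : (γ : ℤ) = gR K F := Int.toNat_of_nonneg hx.gR_nonneg
  have hPl : {P : Place K F | g ^ γ.factorial • P = P}.Finite :=
    finite_fixed_places hx (g ^ γ.factorial) (pow_smul_eq_self hgx _)
      (hfin _ (Nat.factorial_pos γ))
  -- the finite set of candidates
  let 𝓔 : Finset (Divisor K F) :=
    Finset.finsupp hPl.toFinset (fun _ => Finset.Icc (0 : ℤ) γ)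
  let cls : Divisor K F → Pic0 K F := fun E =>
    if h : Divisor.degree (E - Divisor.degree E • Finsupp.single P₀ (1 : ℤ)) = 0 then
      Pic0.mk ⟨_, h⟩ else 0
  refine (𝓔.finite_toSet.image cls).subset ?_
  intro c hc
  have hc' : g • c = c := hc
  obtain ⟨D, rfl⟩ := Pic0.mk_surjective c
  have hD0 : Divisor.degree (D : Divisor K F) = 0 := D.2
  obtain ⟨E, hE, hdeg⟩ := exists_isMinRep hx P₀ (D : Divisor K F) hD0
  have hDp : (g • (D : Divisor K F) - D).IsPrincipal := by
    rw [SemilinearAut.pic0_smul_mk, Pic0.mk, Pic0.mk, QuotientAddGroup.eq,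
      AddSubgroup.mem_addSubgroupOf] at hc'
    have h1 : (-(g • (D : Divisor K F)) + D).IsPrincipal := hc'
    have h2 := (Divisor.principal (K := K) (F := F)).neg_mem h1
    have e : -(-(g • (D : Divisor K F)) + D) = g • (D : Divisor K F) - D := by abel
    rw [e] at h2
    exact h2
  have hgE : g • E = E := hE.smul_eq hx g hP hDp
  refine ⟨E, ?_, ?_⟩
  · rw [Finset.mem_coe, Finset.mem_finsupp_iff]
    refine ⟨fun P hPE => ?_, fun P _ => ?_⟩
    · rw [Set.Finite.mem_toFinset]
      exact pow_factorial_smul_eq hx g hE.1.1 hgE γ (by rw [hγ']; exact hdeg) hPE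
    · rw [Finset.mem_Icc]
      refine ⟨hE.1.1 P, ?_⟩
      have h1 : Finsupp.single P (E P) ≤ E := by
        intro v
        by_cases hv : v = P
        · subst hv; rw [Finsupp.single_eq_same]
        · rw [Finsupp.single_eq_of_ne hv]; exact hE.1.1 v
      have h2 := hx.degree_mono h1
      rw [hx.degree_single] at h2
      rw [hγ']
      exact h2.trans hdeg
  · have h0 : Divisor.degree (E - Divisor.degree E • Finsupp.single P₀ (1 : ℤ)) = 0 := by
      rw [map_sub, map_zsmul, hx.degree_single]; simp
    show (if h : Divisor.degree (E - Divisor.degree E • Finsupp.single P₀ (1 : ℤ)) = 0 then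
      Pic0.mk ⟨_, h⟩ else 0) = Pic0.mk D
    rw [dif_pos h0, Pic0.mk, Pic0.mk, QuotientAddGroup.eq, AddSubgroup.mem_addSubgroupOf]
    have h2 := (Divisor.principal (K := K) (F := F)).neg_mem hE.1.2
    have e : -(E - Divisor.degree E • Finsupp.single P₀ (1 : ℤ) - (D : Divisor K F))
        = -(E - Divisor.degree E • Finsupp.single P₀ (1 : ℤ)) + D := by abel
    rw [e] at h2
    exact h2

/-- `x` has a pole. -/
theorem exists_pole [IsAlgClosed K] (hx : IsSepParam K x) : ∃ P : Place K F, P.ord x < 0 := by
  have h := hx.sum_poles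
  have := hx.finite
  have hpos : 0 < Module.finrank (IntermediateField.adjoin K {x}) F := Module.finrank_pos
  by_contra hcon
  push Not at hcon
  have hempty : hx.finite_poles.toFinset = ∅ := by
    ext v
    simp only [Set.Finite.mem_toFinset, Set.mem_ofPred_eq, Finset.notMem_empty, iff_false, not_lt]
    exact hcon v
  rw [hempty, Finset.sum_empty] at h
  have : (0 : ℤ) < Module.finrank (IntermediateField.adjoin K {x}) F := by exact_mod_cast hpos
  omega

/-- some power of `g` fixes a pole of `x`. -/
theorem exists_pow_smul_pole [IsAlgClosed K] (hx : IsSepParam K x) (g : SemilinearAut K F)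
    (hgx : g • x = x) : ∃ (m : ℕ) (P₀ : Place K F), 0 < m ∧ g ^ m • P₀ = P₀ := by
  classical
  obtain ⟨P, hP⟩ := exists_pole hx
  have hstab : ∀ i : ℕ, g ^ i • P ∈ hx.finite_poles.toFinset := by
    intro i
    rw [Set.Finite.mem_toFinset]
    show (g ^ i • P).ord x < 0
    have h1 := SemilinearAut.ord_smul (g ^ i) P x
    rw [pow_smul_eq_self hgx i] at h1
    rw [h1]
    exact hP
  obtain ⟨i, -, k, -, hik, heq⟩ := Finset.exists_ne_map_eq_of_card_lt_of_maps_to
    (s := Finset.range (hx.finite_poles.toFinset.card + 1)) (t := hx.finite_poles.toFinset)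
    (f := fun i => g ^ i • P) (by rw [Finset.card_range]; omega) (fun i _ => hstab i)
  have key : ∀ i k : ℕ, i < k → g ^ i • P = g ^ k • P → g ^ (k - i) • P = P := by
    intro i k hik heq
    have : g ^ k = g ^ i * g ^ (k - i) := by rw [← pow_add]; congr 1; omega
    rw [this, mul_smul] at heq
    exact (MulAction.injective (g ^ i) heq).symm
  rcases lt_or_gt_of_ne hik with h | h
  · exact ⟨k - i, P, by omega, key i k h heq⟩
  · exact ⟨i - k, P, by omega, key k i h heq.symm⟩

/-- **[FINRED], abstract form**, without a fixed place. -/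
theorem finite_fixed_pic0' [IsAlgClosed K] (hx : IsSepParam K x) (g : SemilinearAut K F)
    (hgx : g • x = x)
    (hfin : ∀ n : ℕ, 0 < n → {a : K | SemilinearAut.baseAut (g ^ n) a = a}.Finite) :
    {c : Pic0 K F | g • c = c}.Finite := by
  obtain ⟨m, P₀, hm, hP⟩ := exists_pow_smul_pole hx g hgx
  refine (finite_fixed_pic0 hx (g ^ m) (pow_smul_eq_self hgx m) P₀ hP fun n hn => ?_).subset
    fun c hc => pow_smul_eq_self (show g • c = c from hc) m
  rw [← pow_mul]
  exact hfin _ (Nat.mul_pos hm hn)

end Fermat.Agent.S40.Kill
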