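import Fermat.Agent.S40.Kill.Abs
import Fermat.Agent.S40.Kill.FinFix
import Fermat.Agent.MAZ.Geo.Basic
import Fermat.Agent.SS.Top35.OldKill
import Fermat.Agent.S17.WMW.Geom

/-!
# S40 / Kill : the old-killer kills the reduction of EVERY point of `J₀(M₀)`   (owner: helper81)

`SS.oldKill` : a polynomial `t₀` in the `T_ℓ` which vanishes on `S₂(Γ₀(M₀))` kills the torsion of `J₀(M₀)`.
Here: `redJ M₀ p A (t₀ y) = 0` for ALL `y : JZero M₀` (`redJ_oldKill`), hence `t̄₀ = 0` on the image of `redJ`.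

* `finite_fixed_coeffAut` [FINRED] : a power of the coefficient Frobenius has finitely many fixed points on `Pic⁰(Fb_M)`.
* `exists_pow_fixing`              : every point of `J₀(N)(ℚ̄)` is fixed by `σ₀ ^ n`, some `n > 0`.
* `reductionModL_eq_zero_of_kills_torsion`, `redJ_eq_zero_of_kills_torsion` : the general form (any Galois equivariant homomorphism
  `J₀(N) → J₀(M)` which kills the torsion).
-/

set_option autoImplicit false
set_option synthInstance.maxHeartbeats 400000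

noncomputable section

open AlgebraicCurve ModularCurve

namespace Fermat.Agent.S40.Kill

open Fermat.Agent.RED hiding GQ Kb
open Fermat.Agent.FLAT (Qb GQ)
open Fermat.Agent.MAZ (redJ redJ_apply)
open Fermat.Agent.GAL Fermat.Agent.GAL.PC

/-- `{a | a ^ q = a}` is finite. -/
theorem finite_pow_eq_self (k : Type*) [Field k] {q : ℕ} (hq : 1 < q) : {a : k | a ^ q = a}.Finite := by
  classical
  have hne : (Polynomial.X ^ q - Polynomial.X : Polynomial k) ≠ 0 :=
    FiniteField.X_pow_card_sub_X_ne_zero k hq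
  refine ((Polynomial.X ^ q - Polynomial.X : Polynomial k).roots.toFinset.finite_toSet).subset ?_
  intro a ha
  have ha' : a ^ q = a := ha
  rw [Finset.mem_coe, Multiset.mem_toFinset, Polynomial.mem_roots hne, Polynomial.IsRoot.def]
  simp [ha']

theorem ringAut_pow_apply {k : Type*} [Field k] (τ : RingAut k) {q : ℕ} (hτ : ∀ a, τ a = a ^ q)
    (n : ℕ) (a : k) : (τ ^ n) a = a ^ (q ^ n) := by
  induction n generalizing a with
  | zero => simp
  | succ n ih =>
    rw [pow_succ, RingAut.mul_apply, hτ, ih, ← pow_mul, pow_succ, mul_comm]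

/-- **[FINRED]** -/
theorem finite_fixed_coeffAut {ℓ : ℕ} [Fact ℓ.Prime] (M : ℕ) [NeZero M] (k : Type*) [Field k]
    [IsAlgClosed k] [CharP k ℓ] (hℓM : ¬ ℓ ∣ M) (τ : k ≃+* k) {q : ℕ} (hq : 1 < q)
    (hτ : ∀ a, τ a = a ^ q) :
    {c : JZeroC k M | coeffAut k M τ • c = c}.Finite := by
  refine finite_fixed_pic0' (Cusp.isSepParam_jb M k ℓ hℓM) (coeffAut k M τ) ?_ ?_
  · apply Subtype.ext
    rw [coe_coeffAut_smul]
    exact coeffMap_jqModC _
  · intro n hn
    have h1 : coeffAut k M τ ^ n = coeffSemiC M ((τ : RingAut k) ^ n) :=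
      (map_pow (coeffSemiC (k := k) M) τ n).symm
    rw [h1]
    have h2 : {a : k | SemilinearAut.baseAut (coeffSemiC M ((τ : RingAut k) ^ n)) a = a}
        = {a : k | a ^ (q ^ n) = a} := by
      ext a
      show ((τ : RingAut k) ^ n) a = a ↔ a ^ (q ^ n) = a
      rw [ringAut_pow_apply τ hτ]
    rw [h2]
    exact finite_pow_eq_self k (Nat.one_lt_pow hn.ne' hq)

/-- the action of `σ₀ ^ n` on the residue field. -/
theorem resAut_pow {A : ValuationSubring Qb} {ℓ : ℕ} {σ₀ : GQ} (h₀ : A.IsFrobeniusAt σ₀ ℓ) (n : ℕ)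
    (hn : σ₀ ^ n ∈ A.decompositionSubgroup ℚ) (a : IsLocalRing.ResidueField A) :
    resAut A (σ₀ ^ n) hn a = a ^ (ℓ ^ n) := by
  rw [resAut_apply]
  have key : ∀ (n : ℕ) (a : IsLocalRing.ResidueField A),
      ((⟨σ₀, h₀.mem_decompositionSubgroup⟩ : A.decompositionSubgroup ℚ) ^ n) • a = a ^ (ℓ ^ n) := by
    intro n
    induction n with
    | zero => intro a; simp
    | succ n ih =>
      intro a
      rw [pow_succ, mul_smul, h₀.smul_residue_eq, ih, ← pow_mul, pow_succ, mul_comm]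
  rw [← key n a]
  rfl

/-- every point is fixed by a power of `σ₀`. -/
theorem exists_pow_fixing (N : ℕ) [NeZero N] (σ₀ : GQ) (y : JZero N) :
    ∃ n : ℕ, 0 < n ∧ σ₀ ^ n • y = y := by
  obtain ⟨K, hK, hfix⟩ := Fermat.Agent.S17.WMW.exists_fixingSubgroup_le N y
  have hidx : K.fixingSubgroup.index ≠ 0 := by
    rw [← IntermediateField.finrank_eq_fixingSubgroup_index]
    exact Module.finrank_pos.ne'
  obtain ⟨n, hn, -, hmem⟩ := Subgroup.exists_pow_mem_of_index_ne_zero hidx σ₀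
  exact ⟨n, hn, hfix _ hmem⟩

theorem exists_nsmul_eq (N : ℕ) [NeZero N] (n : ℕ) (hn : 0 < n) (x : JZero N) :
    ∃ y : JZero N, n • y = x :=
  S19.pic0_divisible Qb (modularFunctionFieldBar N)
    ⟨(IsAlgClosed.lift (R := ℚ) (S := Qb) (M := ℂ)).toRingHom⟩ n hn x

/-- the fixed points of a semilinear automorphism. -/
def fixedPic {K F : Type*} [Field K] [Field F] [Algebra K F] (g : SemilinearAut K F) :
    AddSubgroup (Pic0 K F) where
  carrier := {c | g • c = c}
  zero_mem' := smul_zero g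
  add_mem' := by
    intro a b ha hb
    show g • (a + b) = a + b
    rw [smul_add, show g • a = a from ha, show g • b = b from hb]
  neg_mem' := by
    intro a ha
    show g • (-a) = -a
    rw [smul_neg, show g • a = a from ha]

/-- **the general form**: a Galois equivariant homomorphism `J₀(N) → J₀(M)` which kills the torsion is zero after reduction. -/
theorem reductionModL_eq_zero_of_kills_torsion {N M p : ℕ} [NeZero N] [NeZero M] (hp : p.Prime)
    (hpM : ¬ p ∣ M) (A : ValuationSubring Qb) (hA : A.LiesOverPrime p)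
    (h : ReductionInputsModL A M) (u : JZero N →+ JZero M)
    (hGal : ∀ (σ : GQ) (x : JZero N), u (σ • x) = σ • u x)
    (htors : ∀ n : ℕ, 0 < n → ∀ x : JZero N, n • x = 0 → u x = 0) (y : JZero N) :
    reductionModL A M (u y) = 0 := by
  have : Fact p.Prime := ⟨hp⟩
  have : IsAlgClosed (IsLocalRing.ResidueField A) := GalEq.isAlgClosed_residueField A
  have : CharP (IsLocalRing.ResidueField A) p := GalEq.charP_residueField hp hA
  obtain ⟨σ₀, hσ₀⟩ := Fermat.Agent.S54.exists_isFrobeniusAt_of_liesOverPrime hp A hA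
  obtain ⟨n, hn, hy⟩ := exists_pow_fixing N σ₀ y
  have hσ : σ₀ ^ n ∈ A.decompositionSubgroup ℚ :=
    (A.decompositionSubgroup ℚ).pow_mem hσ₀.mem_decompositionSubgroup n
  set τ := resAut A (σ₀ ^ n) hσ with hτ
  set g := coeffAut (IsLocalRing.ResidueField A) M τ with hg
  have hfin : {c : JZeroC (IsLocalRing.ResidueField A) M | g • c = c}.Finite :=
    finite_fixed_coeffAut M _ hpM τ (Nat.one_lt_pow hn.ne' hp.one_lt)
      (fun a => resAut_pow hσ₀ n hσ a)
  have : Finite (fixedPic g) := hfin.to_subtype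
  refine red_eq_zero_abs₂ (DistribSMul.toAddMonoidHom (JZero N) (σ₀ ^ n))
    (DistribSMul.toAddMonoidHom (JZero M) (σ₀ ^ n)) u
    (fun x => hGal _ x) (exists_nsmul_eq N) htors (reductionModL A M) (fixedPic g) ?_ y hy
  intro z hz
  have hz' : σ₀ ^ n • z = z := hz
  show g • reductionModL A M z = reductionModL A M z
  conv_rhs => rw [← hz']
  rw [reductionModL_smul M hpM A hA h _ hσ]

/-- the same for `redJ`. -/
theorem redJ_eq_zero_of_kills_torsion {N p : ℕ} [NeZero N] (hp : p.Prime) (hpN : ¬ p ∣ N)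
    (A : ValuationSubring Qb) (hA : A.LiesOverPrime p) (φ : JZero N →+ JZero N)
    (hGal : ∀ (σ : GQ) (x : JZero N), φ (σ • x) = σ • φ x)
    (htors : ∀ n : ℕ, 0 < n → ∀ x : JZero N, n • x = 0 → φ x = 0) (y : JZero N) :
    redJ N p A (φ y) = 0 := by
  have : Fact p.Prime := ⟨hp⟩
  exact reductionModL_eq_zero_of_kills_torsion hp (not_dvd_mul_aux hp hpN) A hA
    (reductionInputsModL_aux N hpN A hA)
    ((Bstar N (aux p) (heckeInputsAlong' N (aux p))).comp φ)
    (fun σ x => by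
      rw [AddMonoidHom.comp_apply, AddMonoidHom.comp_apply, hGal, Bstar_smul])
    (fun n hn x hx => by rw [AddMonoidHom.comp_apply, htors n hn x hx, map_zero]) y

open Classical in
/-- the operator `T_ℓ` on `J₀(N)`, zero at the bad `ℓ` (as `Tp`, `heckeT`). -/
def TJ (N : ℕ) [NeZero N] (S : Set ℕ) (ℓ : ℕ) : Module.End ℤ (JZero N) :=
  if h : ℓ.Prime ∧ ℓ ∉ S then heckeOperatorBar N ⟨ℓ, h.1⟩ else 0

theorem TJ_of_good {N : ℕ} [NeZero N] {S : Set ℕ} {ℓ : ℕ} (hℓ : ℓ.Prime) (hS : ℓ ∉ S) :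
    TJ N S ℓ = heckeOperatorBar N ⟨ℓ, hℓ⟩ := dif_pos ⟨hℓ, hS⟩

theorem TJ_of_bad {N : ℕ} [NeZero N] {S : Set ℕ} {ℓ : ℕ} (h : ¬ (ℓ.Prime ∧ ℓ ∉ S)) :
    TJ N S ℓ = 0 := dif_neg h

/-- restriction of endomorphisms to the `r`-power torsion, as a ring homomorphism. -/
def resEnd (J : Type*) [AddCommGroup J] (r : ℕ) : Module.End ℤ J →+* Module.End ℤ (ptors J r) where
  toFun u := restrictPtors r u.toAddMonoidHom
  map_one' := LinearMap.ext fun _ => Subtype.ext rfl
  map_mul' _ _ := LinearMap.ext fun _ => Subtype.ext rfl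
  map_zero' := LinearMap.ext fun _ => Subtype.ext rfl
  map_add' _ _ := LinearMap.ext fun _ => Subtype.ext rfl

theorem coe_resEnd {J : Type*} [AddCommGroup J] (r : ℕ) (u : Module.End ℤ J) (x : ptors J r) :
    ((resEnd J r u x : ptors J r) : J) = u x.1 := rfl

theorem resEnd_TJ (N : ℕ) [NeZero N] (r : ℕ) (S : Set ℕ) (ℓ : ℕ) :
    resEnd (JZero N) r (TJ N S ℓ) = Tp N r S ℓ := by
  by_cases h : ℓ.Prime ∧ ℓ ∉ S
  · rw [TJ_of_good h.1 h.2, Tp_of_good h.1 h.2]
    rfl
  · rw [TJ_of_bad h, Tp_of_bad h, map_zero]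

/-- polynomials in the `T_ℓ` commute with Galois. -/
theorem poly_smul {N : ℕ} [NeZero N] (S : Set ℕ)
    (f : MvPolynomial ℕ ℤ →+* Module.End ℤ (JZero N)) (hf : ∀ ℓ, f (MvPolynomial.X ℓ) = TJ N S ℓ)
    (t : MvPolynomial ℕ ℤ) (σ : GQ) (x : JZero N) : f t (σ • x) = σ • f t x := by
  induction t using MvPolynomial.induction_on generalizing x with
  | C a =>
    rw [eq_intCast (MvPolynomial.C : ℤ →+* MvPolynomial ℕ ℤ) a, map_intCast,
      Module.End.intCast_apply, Module.End.intCast_apply, smul_comm]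
  | add P Q hP hQ => rw [map_add, LinearMap.add_apply, LinearMap.add_apply, hP, hQ, smul_add]
  | mul_X P ℓ hP =>
    rw [map_mul, Module.End.mul_apply, Module.End.mul_apply, hf]
    by_cases h : ℓ.Prime ∧ ℓ ∉ S
    · rw [TJ_of_good h.1 h.2, ← galHecke N ⟨ℓ, h.1⟩ σ x, hP]
    · rw [TJ_of_bad h, LinearMap.zero_apply, LinearMap.zero_apply, map_zero]
      exact (smul_zero (A := JZero N) σ).symm

/-- `t₀` kills the torsion of `J₀(N)`. -/
theorem poly_kills_torsion {N : ℕ} [NeZero N] (S : Set ℕ)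
    (hS : ∀ ℓ : ℕ, ℓ.Prime → ℓ ∉ S → ¬ ℓ ∣ N)
    (f : MvPolynomial ℕ ℤ →+* Module.End ℤ (JZero N)) (hf : ∀ ℓ, f (MvPolynomial.X ℓ) = TJ N S ℓ)
    (t₀ : MvPolynomial ℕ ℤ) (ht₀ : MvPolynomial.aeval (heckeT N S) t₀ = 0) :
    ∀ n : ℕ, 0 < n → ∀ x : JZero N, n • x = 0 → f t₀ x = 0 := by
  refine eq_zero_of_torsion (f t₀).toAddMonoidHom ?_
  intro r hr k x hx
  have := Fermat.Agent.SS.oldKill hr S hS ((resEnd (JZero N) r).comp f)
    (fun ℓ => by rw [RingHom.comp_apply, hf, resEnd_TJ]) t₀ ht₀ ⟨x, ⟨k, hx⟩⟩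
  exact congrArg Subtype.val this

/-- **the old-killer kills the reduction of every point.** -/
theorem redJ_oldKill {M₀ p : ℕ} [NeZero M₀] (hp : p.Prime) (hpM : ¬ p ∣ M₀)
    (A : ValuationSubring Qb) (hA : A.LiesOverPrime p) (S : Set ℕ)
    (hS : ∀ ℓ : ℕ, ℓ.Prime → ℓ ∉ S → ¬ ℓ ∣ M₀)
    (f : MvPolynomial ℕ ℤ →+* Module.End ℤ (JZero M₀))
    (hf : ∀ ℓ, f (MvPolynomial.X ℓ) = TJ M₀ S ℓ)
    (t₀ : MvPolynomial ℕ ℤ) (ht₀ : MvPolynomial.aeval (heckeT M₀ S) t₀ = 0) (y : JZero M₀) :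
    redJ M₀ p A (f t₀ y) = 0 :=
  redJ_eq_zero_of_kills_torsion hp hpM A hA (f t₀).toAddMonoidHom
    (fun σ x => poly_smul S f hf t₀ σ x) (poly_kills_torsion S hS f hf t₀ ht₀) y

end Fermat.Agent.S40.Kill
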