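import Mathlib

/-!
# S40 / Kill : the abstract argument (owner: helper81)

`J` a divisible abelian group with an automorphism `σ`, `φ` an endomorphism commuting with `σ` which kills the torsion of `J`,
`red : J → J'` a homomorphism which maps the `σ`-fixed points into a finite subgroup `R`.  Then `red (φ y) = 0` for every `y` fixed by `σ`.
-/

set_option autoImplicit false

namespace Fermat.Agent.S40.Kill

theorem red_eq_zero_abs₂ {J J₂ J' : Type*} [AddCommGroup J] [AddCommGroup J₂] [AddCommGroup J']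
    (σ : J →+ J) (σ₂ : J₂ →+ J₂) (u : J →+ J₂) (hcomm : ∀ x, u (σ x) = σ₂ (u x))
    (hdiv : ∀ n : ℕ, 0 < n → ∀ y : J, ∃ z : J, n • z = y)
    (htors : ∀ n : ℕ, 0 < n → ∀ x : J, n • x = 0 → u x = 0)
    (red : J₂ →+ J') (R : AddSubgroup J') [Finite R] (hR : ∀ z : J₂, σ₂ z = z → red z ∈ R)
    (y : J) (hy : σ y = y) : red (u y) = 0 := by
  have hn : 0 < Nat.card R := Nat.card_pos
  obtain ⟨z, hz⟩ := hdiv _ hn y
  have h1 : u (σ z - z) = 0 := by
    refine htors _ hn _ ?_
    rw [smul_sub, ← map_nsmul, hz, hy, sub_self]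
  have h2 : σ₂ (u z) = u z := by
    rw [map_sub, sub_eq_zero] at h1
    rw [← hcomm, h1]
  have h3 : Nat.card R • (⟨red (u z), hR _ h2⟩ : R) = 0 := card_nsmul_eq_zero'
  have h4 : Nat.card R • red (u z) = 0 := by
    have := congrArg Subtype.val h3
    rwa [AddSubgroup.coe_nsmul, AddSubgroup.coe_zero] at this
  rw [← hz, map_nsmul, map_nsmul, h4]

theorem red_eq_zero_abs {J J' : Type*} [AddCommGroup J] [AddCommGroup J'] (σ φ : J →+ J)
    (hcomm : ∀ x, φ (σ x) = σ (φ x))
    (hdiv : ∀ n : ℕ, 0 < n → ∀ y : J, ∃ z : J, n • z = y)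
    (htors : ∀ n : ℕ, 0 < n → ∀ x : J, n • x = 0 → φ x = 0)
    (red : J →+ J') (R : AddSubgroup J') [Finite R] (hR : ∀ z : J, σ z = z → red z ∈ R)
    (y : J) (hy : σ y = y) : red (φ y) = 0 :=
  red_eq_zero_abs₂ σ σ φ hcomm hdiv htors red R hR y hy

/-- an additive map which kills the `p`-power torsion for all primes `p` kills the torsion. -/
theorem eq_zero_of_torsion {J J' : Type*} [AddCommGroup J] [AddCommGroup J'] (φ : J →+ J')
    (h : ∀ p : ℕ, p.Prime → ∀ (k : ℕ) (x : J), p ^ k • x = 0 → φ x = 0) :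
    ∀ n : ℕ, 0 < n → ∀ x : J, n • x = 0 → φ x = 0 := by
  intro n
  induction n using Nat.recOnPosPrimePosCoprime with
  | prime_pow p k hp _ => exact fun _ x hx => h p hp k x hx
  | zero => exact fun h0 => absurd h0 (lt_irrefl 0)
  | one => exact fun _ x hx => by rw [one_smul] at hx; rw [hx, map_zero]
  | coprime a b ha hb hab iha ihb =>
    intro _ x hx
    have h1 : φ (a • x) = 0 := ihb (by omega) _ (by rw [← mul_smul, mul_comm]; exact hx)
    have h2 : φ (b • x) = 0 := iha (by omega) _ (by rw [← mul_smul]; exact hx)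
    have hb' : (a : ℤ) * Nat.gcdA a b + (b : ℤ) * Nat.gcdB a b = 1 := by
      have := Nat.gcd_eq_gcd_ab a b
      rw [hab] at this
      exact_mod_cast this.symm
    have hx' : x = Nat.gcdA a b • (a • x) + Nat.gcdB a b • (b • x) := by
      rw [← natCast_zsmul x a, ← natCast_zsmul x b, ← mul_smul, ← mul_smul, ← add_smul,
        mul_comm _ (a : ℤ), mul_comm _ (b : ℤ), hb', one_smul]
    rw [hx', map_add, map_zsmul, map_zsmul, h1, h2, smul_zero, smul_zero, add_zero]

end Fermat.Agent.S40.Kill
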